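import Mathlib

/-
S55 / leaf 16-SUNIT (second seat, helper19): Dirichlet's S-unit theorem, rank part.

For a number field `F` and a finite set `T` of finite primes:
* `valAdd F T : Additive (T.unit F) →+ (T → ℤ)`, the valuation vector (Mathlib's
  `HeightOneSpectrum.valuationOfNeZero`);
* its kernel is the image of `(𝓞 F)ˣ` (`range_unitsToSUnits_toAdditive`, `unitsEquivKer`);
* its range has finite index in `ℤ ^ T` (`range_valAdd_finiteIndex`; the class number kills the
  class of every prime);
* `Module.Finite ℤ (Additive (T.unit F))` and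
  `finrank ℤ (Additive (T.unit F)) = T.card + Units.rank F` (`finrank_sUnits`).
Mathlib only.
-/

set_option autoImplicit false

open NumberField IsDedekindDomain

namespace Fermat.Agent.S55.SUnit19.SUnitRank

variable (F : Type*) [Field F] [NumberField F]
variable (T : Finset (HeightOneSpectrum (𝓞 F)))

/-- The `T`-units of `F` (Mathlib's `Set.unit` at a finite set of primes). -/
noncomputable abbrev sUnits : Subgroup Fˣ := (T : Set (HeightOneSpectrum (𝓞 F))).unit F

/-- The additive valuation vector `x ↦ (ord_v x)_{v ∈ T}` (with Mathlib's sign convention: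
`ord_v x = toAdd (v.valuationOfNeZero x)`, which is `-` the usual order). -/
noncomputable def valAdd : Additive ↥(sUnits F T) →+ (T → ℤ) where
  toFun x := fun v =>
    Multiplicative.toAdd (v.1.valuationOfNeZero (((Additive.toMul x : ↥(sUnits F T)) : Fˣ)))
  map_zero' := by
    funext v
    simp
  map_add' x y := by
    funext v
    simp

variable {F T}

theorem valAdd_apply (x : Additive ↥(sUnits F T)) (v : T) :
    valAdd F T x v =
      Multiplicative.toAdd (v.1.valuationOfNeZero (((Additive.toMul x : ↥(sUnits F T)) : Fˣ))) :=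
  rfl

theorem valAdd_eq_zero_iff (x : Additive ↥(sUnits F T)) :
    valAdd F T x = 0 ↔
      ∀ v : HeightOneSpectrum (𝓞 F),
        v.valuation F ((((Additive.toMul x : ↥(sUnits F T)) : Fˣ)) : F) = 1 := by
  constructor
  · intro h v
    by_cases hv : v ∈ T
    · have := congrFun h ⟨v, hv⟩
      rw [valAdd_apply] at this
      simp only [Pi.zero_apply] at this
      have h1 : v.valuationOfNeZero (((Additive.toMul x : ↥(sUnits F T)) : Fˣ)) = 1 := by
        exact Multiplicative.toAdd.injective this
      rw [← HeightOneSpectrum.valuationOfNeZero_eq, h1]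
      rfl
    · exact Set.unit_valuation_eq_one _ F (Additive.toMul x) (by simpa using hv)
  · intro h
    funext v
    rw [valAdd_apply]
    have h1 : v.1.valuationOfNeZero (((Additive.toMul x : ↥(sUnits F T)) : Fˣ)) = 1 := by
      rw [← WithZero.coe_inj, HeightOneSpectrum.valuationOfNeZero_eq, h v.1]
      rfl
    rw [h1]
    rfl

variable (F T)

/-- Units of `𝓞 F` as `T`-units. -/
noncomputable def unitsToSUnits : (𝓞 F)ˣ →* ↥(sUnits F T) where
  toFun u := ⟨Units.map (algebraMap (𝓞 F) F : 𝓞 F →* F) u, fun v _ => by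
    have := v.valuation_of_unit_eq (K := F) u
    rw [← WithZero.coe_inj, HeightOneSpectrum.valuationOfNeZero_eq] at this
    exact this⟩
  map_one' := by
    apply Subtype.ext
    simp
  map_mul' x y := by
    apply Subtype.ext
    simp

variable {F T}

theorem coe_unitsToSUnits (u : (𝓞 F)ˣ) :
    (((unitsToSUnits F T u : ↥(sUnits F T)) : Fˣ) : F) = algebraMap (𝓞 F) F (u : 𝓞 F) := rfl

theorem unitsToSUnits_injective : Function.Injective (unitsToSUnits F T) := by
  intro u u' h
  have := congrArg (fun z : ↥(sUnits F T) => ((z : Fˣ) : F)) h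
  simp only [coe_unitsToSUnits] at this
  exact Units.ext (RingOfIntegers.ext this)

theorem range_unitsToSUnits_toAdditive :
    (MonoidHom.toAdditive (unitsToSUnits F T)).range = (valAdd F T).ker := by
  ext x
  rw [AddMonoidHom.mem_ker, valAdd_eq_zero_iff]
  constructor
  · rintro ⟨u, rfl⟩ v
    have := v.valuation_of_unit_eq (K := F) (Additive.toMul u)
    rw [← WithZero.coe_inj, HeightOneSpectrum.valuationOfNeZero_eq] at this
    exact this
  · intro h
    set y : ↥(sUnits F T) := Additive.toMul x with hy
    have h1 : ∀ v : HeightOneSpectrum (𝓞 F), v.valuation F ((y : Fˣ) : F) ≤ 1 :=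
      fun v => (h v).le
    have h2 : ∀ v : HeightOneSpectrum (𝓞 F), v.valuation F (((y : Fˣ)⁻¹ : Fˣ) : F) ≤ 1 := by
      intro v
      rw [Units.val_inv_eq_inv_val, map_inv₀, h v, inv_one]
    obtain ⟨a, ha⟩ := HeightOneSpectrum.mem_integers_of_valuation_le_one F _ h1
    obtain ⟨b, hb⟩ := HeightOneSpectrum.mem_integers_of_valuation_le_one F _ h2
    have hab : a * b = 1 := by
      apply FaithfulSMul.algebraMap_injective (𝓞 F) F
      rw [map_mul, ha, hb, map_one, ← Units.val_mul, mul_inv_cancel, Units.val_one]
    have hba : b * a = 1 := by rw [mul_comm, hab]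
    refine ⟨Additive.ofMul (⟨a, b, hab, hba⟩ : (𝓞 F)ˣ), ?_⟩
    change Additive.ofMul (unitsToSUnits F T ⟨a, b, hab, hba⟩) = x
    have : unitsToSUnits F T ⟨a, b, hab, hba⟩ = y := by
      apply Subtype.ext
      apply Units.ext
      rw [coe_unitsToSUnits]
      exact ha
    rw [this, hy]
    rfl


/-! ### Principal generators of `v ^ h` -/

open scoped nonZeroDivisors in
theorem exists_generator (v : HeightOneSpectrum (𝓞 F)) :
    ∃ a : 𝓞 F, a ≠ 0 ∧ Ideal.span {a} = v.asIdeal ^ (classNumber F) := by
  have hv : v.asIdeal ∈ (Ideal (𝓞 F))⁰ := mem_nonZeroDivisors_of_ne_zero v.ne_bot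
  have h1 : ClassGroup.mk0 (⟨v.asIdeal, hv⟩ ^ classNumber F) = 1 := by
    rw [map_pow]
    exact pow_card_eq_one
  rw [SubmonoidClass.mk_pow, ClassGroup.mk0_eq_one_iff] at h1
  obtain ⟨a, ha⟩ := h1
  refine ⟨a, ?_, ?_⟩
  · rintro rfl
    have : v.asIdeal ^ classNumber F = ⊥ := by
      rw [ha]; simp
    exact v.ne_bot (pow_eq_zero_iff (classNumber_ne_zero F) |>.mp this)
  · rw [ha]

theorem valuation_generator_self {v : HeightOneSpectrum (𝓞 F)} {a : 𝓞 F} (ha0 : a ≠ 0)
    (ha : Ideal.span {a} = v.asIdeal ^ (classNumber F)) :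
    v.valuation F (algebraMap (𝓞 F) F a) = WithZero.exp (-(classNumber F : ℤ)) := by
  rw [HeightOneSpectrum.valuation_of_algebraMap, v.intValuation_eq_exp_neg_multiplicity ha0, ha,
    multiplicity_pow_self v.ne_bot (by
      rw [Ideal.isUnit_iff]; exact v.isPrime.ne_top)]

theorem valuation_generator_of_ne {v w : HeightOneSpectrum (𝓞 F)} {a : 𝓞 F}
    (ha : Ideal.span {a} = v.asIdeal ^ (classNumber F)) (hw : w ≠ v) :
    w.valuation F (algebraMap (𝓞 F) F a) = 1 := by
  rw [HeightOneSpectrum.valuation_eq_one_iff_notMem]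
  intro hmem
  have h1 : v.asIdeal ^ classNumber F ≤ w.asIdeal := by
    rw [← ha, Ideal.span_singleton_le_iff_mem]
    exact hmem
  have h2 : v.asIdeal ≤ w.asIdeal := w.isPrime.le_of_pow_le h1
  have h3 : v.asIdeal = w.asIdeal := v.isMaximal.eq_of_le w.isPrime.ne_top h2
  exact hw (HeightOneSpectrum.ext h3.symm)


variable (F T)

/-- For `v ∈ T` there is a `T`-unit whose valuation vector is `-h • e_v`
(`h` the class number): a generator of the principal ideal `v ^ h`. -/
theorem exists_sUnit_generator (v : T) :
    ∃ x : ↥(sUnits F T),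
      valAdd F T (Additive.ofMul x) v = -(classNumber F : ℤ) ∧
        ∀ w : T, w ≠ v → valAdd F T (Additive.ofMul x) w = 0 := by
  obtain ⟨a, ha0, ha⟩ := exists_generator v.1
  have hne : algebraMap (𝓞 F) F a ≠ 0 := by
    simpa using ha0
  refine ⟨⟨Units.mk0 _ hne, fun w hw => ?_⟩, ?_, ?_⟩
  · have hwv : w ≠ v.1 := by
      rintro rfl
      exact hw (by simp)
    simpa using valuation_generator_of_ne ha hwv
  · rw [valAdd_apply]
    have h1 : v.1.valuationOfNeZero (Units.mk0 _ hne) =
        Multiplicative.ofAdd (-(classNumber F : ℤ)) := by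
      rw [← WithZero.coe_inj, HeightOneSpectrum.valuationOfNeZero_eq, Units.val_mk0,
        valuation_generator_self ha0 ha]
      rfl
    simp only [toMul_ofMul]
    rw [h1]
    rfl
  · intro w hwv
    rw [valAdd_apply]
    have hwv' : w.1 ≠ v.1 := fun h => hwv (Subtype.ext h)
    have h1 : w.1.valuationOfNeZero (Units.mk0 _ hne) = 1 := by
      rw [← WithZero.coe_inj, HeightOneSpectrum.valuationOfNeZero_eq, Units.val_mk0,
        valuation_generator_of_ne ha hwv']
      rfl
    simp only [toMul_ofMul]
    rw [h1]
    rfl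

/-- The valuation vectors of the `T`-units form a subgroup of finite index of `ℤ ^ T`. -/
theorem range_valAdd_finiteIndex : (valAdd F T).range.FiniteIndex := by
  classical
  have : NeZero (classNumber F) := ⟨classNumber_ne_zero F⟩
  let g : (T → ℤ) →+ (T → ZMod (classNumber F)) :=
    (Int.castAddHom (ZMod (classNumber F))).compLeft T
  have hker : g.ker ≤ (valAdd F T).range := by
    intro x hx
    have hdvd : ∀ v, (classNumber F : ℤ) ∣ x v := fun v => by
      have := congrFun hx v
      exact (ZMod.intCast_zmod_eq_zero_iff_dvd _ _).mp this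
    choose c hc using hdvd
    choose y hy hy' using exists_sUnit_generator F T
    have hx' : x = ∑ v, (-(c v)) • valAdd F T (Additive.ofMul (y v)) := by
      funext w
      simp only [Finset.sum_apply, Pi.smul_apply, smul_eq_mul]
      rw [Finset.sum_eq_single w]
      · rw [hy w, hc w]; ring
      · intro b _ hb
        rw [hy' b w (Ne.symm hb), mul_zero]
      · intro h
        exact absurd (Finset.mem_univ w) h
    rw [hx']
    exact AddSubgroup.sum_mem _ fun v _ =>
      AddSubgroup.zsmul_mem _ (AddMonoidHom.mem_range.mpr ⟨_, rfl⟩) _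
  have : g.ker.FiniteIndex := AddSubgroup.finiteIndex_ker g
  exact AddSubgroup.finiteIndex_of_le hker

/-- `valAdd` as a `ℤ`-linear map. -/
noncomputable def valLin : Additive ↥(sUnits F T) →ₗ[ℤ] (T → ℤ) := (valAdd F T).toIntLinearMap

/-- The inclusion of the units into the `T`-units as a `ℤ`-linear map. -/
noncomputable def unitsLin : Additive (𝓞 F)ˣ →ₗ[ℤ] Additive ↥(sUnits F T) :=
  (MonoidHom.toAdditive (unitsToSUnits F T)).toIntLinearMap

theorem unitsLin_injective : Function.Injective (unitsLin F T) := by
  intro x y h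
  exact unitsToSUnits_injective (F := F) (T := T) h

theorem range_unitsLin : LinearMap.range (unitsLin F T) = LinearMap.ker (valLin F T) := by
  ext x
  have := range_unitsToSUnits_toAdditive (F := F) (T := T)
  have h2 : x ∈ (MonoidHom.toAdditive (unitsToSUnits F T)).range ↔ x ∈ (valAdd F T).ker := by
    rw [this]
  exact h2

/-- The unit group is the kernel of the valuation map. -/
noncomputable def unitsEquivKer : Additive (𝓞 F)ˣ ≃ₗ[ℤ] LinearMap.ker (valLin F T) :=
  (LinearEquiv.ofInjective (unitsLin F T) (unitsLin_injective F T)).trans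
    (LinearEquiv.ofEq _ _ (range_unitsLin F T))

instance finite_sUnits : Module.Finite ℤ (Additive ↥(sUnits F T)) := by
  have : Module.Finite ℤ (LinearMap.ker (valLin F T)) :=
    Module.Finite.equiv (unitsEquivKer F T)
  have : Module.Finite ℤ (Additive ↥(sUnits F T) ⧸ LinearMap.ker (valLin F T)) :=
    Module.Finite.equiv (valLin F T).quotKerEquivRange.symm
  exact Module.Finite.of_submodule_quotient (LinearMap.ker (valLin F T))

theorem finrank_range_valLin :
    Module.finrank ℤ (LinearMap.range (valLin F T)) = T.card := by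
  have hfin : Finite ((T → ℤ) ⧸ LinearMap.range (valLin F T)) := by
    have h1 := range_valAdd_finiteIndex F T
    have h2 : Finite ((T → ℤ) ⧸ (valAdd F T).range) := inferInstance
    exact h2
  rw [(Submodule.finiteQuotient_iff _).mp hfin]
  simp

/-- **Dirichlet's `S`-unit theorem, rank part.** -/
theorem finrank_sUnits :
    Module.finrank ℤ (Additive ↥(sUnits F T)) = T.card + Units.rank F := by
  have h1 := (LinearMap.ker (valLin F T)).finrank_quotient_add_finrank
  rw [(valLin F T).quotKerEquivRange.finrank_eq, finrank_range_valLin,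
    ← (unitsEquivKer F T).finrank_eq, Units.finrank_eq] at h1
  exact h1.symm

theorem finrank_sUnits' :
    Module.finrank ℤ (Additive ↥(sUnits F T)) + 1 = T.card + Fintype.card (InfinitePlace F) := by
  rw [finrank_sUnits, Units.rank, add_assoc, Nat.sub_add_cancel Fintype.card_pos]

end Fermat.Agent.S55.SUnit19.SUnitRank
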