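import Mathlib
import Fermat.Agent.S55.SUnit19.SUnitRank
import Fermat.Agent.S55.SUnit1.Places

/-
S55 / leaf 16-SUNIT (second seat, helper19), part (R2): Galois action and fixed points of S-units.

`K ⊆ L` number fields, `TK` / `TL` finite sets of primes with `TL` = the primes of `L` above `TK`
(`IsOver`).  Then `Gal(L/K)` acts on the `TL`-units (`rho`), the `TK`-units embed (`mapSUnits`),
and for `L/K` Galois the fixed points are exactly the image of the `TK`-units
(`fixed_iff_mem_range`); for a generator `g₀` of `Gal(L/K)`, `ker (σ - 1)` has rank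
`|TK| + rank K` (`finrank_ker_sub_one`).  Uses helper1's `SUnit1.Places` (`primeSmul`,
`valuation_primeSmul`) and `SUnitRank`.
-/
set_option autoImplicit false
set_option linter.unusedSectionVars false

open NumberField IsDedekindDomain

namespace Fermat.Agent.S55.SUnit19.Fixed

open Fermat.Agent.S55.SUnit19.SUnitRank Fermat.Agent.S55.SUnit1.Places

variable (K L : Type*) [Field K] [NumberField K] [Field L] [NumberField L] [Algebra K L]
variable (TK : Finset (HeightOneSpectrum (𝓞 K))) (TL : Finset (HeightOneSpectrum (𝓞 L)))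

/-- `TL` is the set of primes of `L` above the primes in `TK`. -/
def IsOver : Prop := ∀ w : HeightOneSpectrum (𝓞 L), w ∈ TL ↔ w.under (𝓞 K) ∈ TK

variable {K L}

theorem coe_algebraMap (x : 𝓞 K) :
    ((algebraMap (𝓞 K) (𝓞 L) x : 𝓞 L) : L) = algebraMap K L (x : K) := by
  rfl

theorem smul_algebraMap_int (σ : L ≃ₐ[K] L) (x : 𝓞 K) :
    σ • (algebraMap (𝓞 K) (𝓞 L) x) = algebraMap (𝓞 K) (𝓞 L) x := by
  apply RingOfIntegers.ext
  rw [coe_smul, coe_algebraMap]
  exact σ.commutes _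

theorem under_primeSmul (σ : L ≃ₐ[K] L) (w : HeightOneSpectrum (𝓞 L)) :
    (primeSmul σ w).under (𝓞 K) = w.under (𝓞 K) := by
  ext x
  simp only [HeightOneSpectrum.under_asIdeal, Ideal.under_def, Ideal.mem_comap]
  rw [mem_primeSmul, smul_algebraMap_int]

theorem exists_under_eq (v : HeightOneSpectrum (𝓞 K)) :
    ∃ w : HeightOneSpectrum (𝓞 L), w.under (𝓞 K) = v := by
  obtain ⟨P, hP, hPv⟩ :=
    v.asIdeal.exists_ideal_over_prime_of_isIntegral_of_isDomain (S := 𝓞 L) (by simp)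
  refine ⟨⟨P, hP, ?_⟩, ?_⟩
  · rintro rfl
    apply v.ne_bot
    rw [← hPv]
    simp
  · ext x
    simp only [HeightOneSpectrum.under_asIdeal, Ideal.under_def]
    rw [← hPv]


variable {TK TL}

theorem IsOver.primeSmul_mem_iff (hT : IsOver K L TK TL) (σ : L ≃ₐ[K] L)
    (w : HeightOneSpectrum (𝓞 L)) : primeSmul σ w ∈ TL ↔ w ∈ TL := by
  rw [hT, hT, under_primeSmul]

/-! ### The Galois action on the `TL`-units -/

theorem smul_mem_sUnits (hT : IsOver K L TK TL) (σ : L ≃ₐ[K] L) {x : Lˣ}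
    (hx : x ∈ sUnits L TL) : Units.map (σ : L →* L) x ∈ sUnits L TL := by
  intro w hw
  have h1 := valuation_primeSmul σ⁻¹ w ((Units.map (σ : L →* L) x : Lˣ) : L)
  have h2 : primeSmul σ⁻¹ w ∉ (TL : Set (HeightOneSpectrum (𝓞 L))) := by
    intro h
    exact hw ((hT.primeSmul_mem_iff σ⁻¹ w).mp h)
  have h3 := hx (primeSmul σ⁻¹ w) h2
  have h4 : σ⁻¹ • ((Units.map (σ : L →* L) x : Lˣ) : L) = (x : L) := by
    change σ⁻¹ (σ (x : L)) = x
    exact σ.symm_apply_apply _
  rw [h4] at h1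
  rw [← h1]
  exact h3

/-- The action of `σ` on the `TL`-units. -/
noncomputable def sUnitsSmul (hT : IsOver K L TK TL) (σ : L ≃ₐ[K] L) :
    ↥(sUnits L TL) →* ↥(sUnits L TL) where
  toFun x := ⟨Units.map (σ : L →* L) x, smul_mem_sUnits hT σ x.2⟩
  map_one' := by
    apply Subtype.ext
    simp
  map_mul' x y := by
    apply Subtype.ext
    simp

theorem coe_sUnitsSmul (hT : IsOver K L TK TL) (σ : L ≃ₐ[K] L) (x : ↥(sUnits L TL)) :
    (((sUnitsSmul hT σ x : ↥(sUnits L TL)) : Lˣ) : L) = σ ((x : Lˣ) : L) := rfl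

/-- The representation of `Gal(L/K)` on the additive group of `TL`-units. -/
noncomputable def rho (hT : IsOver K L TK TL) :
    (L ≃ₐ[K] L) →* AddMonoid.End (Additive ↥(sUnits L TL)) where
  toFun σ := MonoidHom.toAdditive (sUnitsSmul hT σ)
  map_one' := by
    ext x
    rfl
  map_mul' σ τ := by
    ext x
    rfl

theorem rho_apply (hT : IsOver K L TK TL) (σ : L ≃ₐ[K] L) (x : Additive ↥(sUnits L TL)) :
    rho hT σ x = Additive.ofMul (sUnitsSmul hT σ (Additive.toMul x)) := rfl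

/-! ### The `TK`-units inside the `TL`-units -/

theorem map_mem_sUnits (hT : IsOver K L TK TL) {y : Kˣ} (hy : y ∈ sUnits K TK) :
    Units.map (algebraMap K L : K →* L) y ∈ sUnits L TL := by
  intro w hw
  have hv : w.under (𝓞 K) ∉ (TK : Set (HeightOneSpectrum (𝓞 K))) := by
    intro h
    exact hw ((hT w).mpr h)
  have h1 := hy (w.under (𝓞 K)) hv
  have : w.asIdeal.LiesOver (w.under (𝓞 K)).asIdeal := ⟨rfl⟩
  have h2 := HeightOneSpectrum.valuation_liesOver L (w.under (𝓞 K)) w (y : K)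
  rw [h1, one_pow] at h2
  exact h2.symm

/-- The inclusion of the `TK`-units of `K` into the `TL`-units of `L`. -/
noncomputable def mapSUnits (hT : IsOver K L TK TL) : ↥(sUnits K TK) →* ↥(sUnits L TL) where
  toFun y := ⟨Units.map (algebraMap K L : K →* L) y, map_mem_sUnits hT y.2⟩
  map_one' := by
    apply Subtype.ext
    simp
  map_mul' x y := by
    apply Subtype.ext
    simp

theorem coe_mapSUnits (hT : IsOver K L TK TL) (y : ↥(sUnits K TK)) :
    (((mapSUnits hT y : ↥(sUnits L TL)) : Lˣ) : L) = algebraMap K L ((y : Kˣ) : K) := rfl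

theorem mapSUnits_injective (hT : IsOver K L TK TL) : Function.Injective (mapSUnits hT) := by
  intro y y' h
  have := congrArg (fun z : ↥(sUnits L TL) => ((z : Lˣ) : L)) h
  simp only [coe_mapSUnits] at this
  exact Subtype.ext (Units.ext ((algebraMap K L).injective this))

theorem mem_sUnits_of_map_mem (hT : IsOver K L TK TL) {y : Kˣ}
    (hy : Units.map (algebraMap K L : K →* L) y ∈ sUnits L TL) : y ∈ sUnits K TK := by
  intro v hv
  obtain ⟨w, rfl⟩ := exists_under_eq (L := L) v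
  have hw : w ∉ (TL : Set (HeightOneSpectrum (𝓞 L))) := by
    intro h
    exact hv ((hT w).mp h)
  have h1 := hy w hw
  have : w.asIdeal.LiesOver (w.under (𝓞 K)).asIdeal := ⟨rfl⟩
  have h2 := HeightOneSpectrum.valuation_liesOver L (w.under (𝓞 K)) w (y : K)
  have h3 : ((Units.map (algebraMap K L : K →* L) y : Lˣ) : L) = algebraMap K L (y : K) := rfl
  rw [h3] at h1
  rw [h1] at h2
  have hne : (w.under (𝓞 K)).asIdeal.ramificationIdx' w.asIdeal ≠ 0 :=
    Ideal.IsDedekindDomain.ramificationIdx'_ne_zero_of_liesOver w.asIdeal (w.under (𝓞 K)).ne_bot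
  exact (pow_eq_one_iff_of_nonneg zero_le hne).mp h2

/-- **Fixed points**: a `TL`-unit fixed by `Gal(L/K)` comes from a `TK`-unit. -/
theorem fixed_iff_mem_range [IsGalois K L] (hT : IsOver K L TK TL)
    (x : Additive ↥(sUnits L TL)) :
    (∀ σ : L ≃ₐ[K] L, rho hT σ x = x) ↔ x ∈ (MonoidHom.toAdditive (mapSUnits hT)).range := by
  constructor
  · intro h
    set z : ↥(sUnits L TL) := Additive.toMul x with hz
    have hfix : ∀ σ : L ≃ₐ[K] L, σ ((z : Lˣ) : L) = ((z : Lˣ) : L) := by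
      intro σ
      have := congrArg (fun t : Additive ↥(sUnits L TL) =>
        (((Additive.toMul t : ↥(sUnits L TL)) : Lˣ) : L)) (h σ)
      exact this
    obtain ⟨y, hy⟩ := (IsGalois.mem_range_algebraMap_iff_fixed (F := K) (E := L) _).mpr hfix
    have hy0 : y ≠ 0 := by
      rintro rfl
      rw [map_zero] at hy
      exact (z : Lˣ).ne_zero hy.symm
    have hmem : Units.map (algebraMap K L : K →* L) (Units.mk0 y hy0) ∈ sUnits L TL := by
      have : Units.map (algebraMap K L : K →* L) (Units.mk0 y hy0) = (z : Lˣ) := by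
        apply Units.ext
        exact hy
      rw [this]
      exact z.2
    refine ⟨Additive.ofMul ⟨Units.mk0 y hy0, mem_sUnits_of_map_mem hT hmem⟩, ?_⟩
    change Additive.ofMul (mapSUnits hT ⟨Units.mk0 y hy0, _⟩) = x
    have : mapSUnits hT ⟨Units.mk0 y hy0, mem_sUnits_of_map_mem hT hmem⟩ = z := by
      apply Subtype.ext
      apply Units.ext
      exact hy
    rw [this, hz]
    rfl
  · rintro ⟨y, rfl⟩ σ
    change Additive.ofMul (sUnitsSmul hT σ (mapSUnits hT (Additive.toMul y))) =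
      Additive.ofMul (mapSUnits hT (Additive.toMul y))
    congr 1
    apply Subtype.ext
    apply Units.ext
    change σ (algebraMap K L _) = algebraMap K L _
    exact σ.commutes _

/-! ### Linear algebra form -/

/-- `ρ g₀` as a `ℤ`-linear endomorphism of the `TL`-units. -/
noncomputable def sigmaEnd (hT : IsOver K L TK TL) (g₀ : L ≃ₐ[K] L) :
    Module.End ℤ (Additive ↥(sUnits L TL)) :=
  (show Additive ↥(sUnits L TL) →+ Additive ↥(sUnits L TL) from rho hT g₀).toIntLinearMap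

theorem sigmaEnd_apply (hT : IsOver K L TK TL) (g₀ : L ≃ₐ[K] L) (x : Additive ↥(sUnits L TL)) :
    sigmaEnd hT g₀ x = rho hT g₀ x := rfl

theorem sigmaEnd_one (hT : IsOver K L TK TL) : sigmaEnd hT (1 : L ≃ₐ[K] L) = 1 := by
  ext x
  rfl

theorem sigmaEnd_mul (hT : IsOver K L TK TL) (σ τ : L ≃ₐ[K] L) :
    sigmaEnd hT (σ * τ) = sigmaEnd hT σ * sigmaEnd hT τ := by
  ext x
  rfl

theorem sigmaEnd_pow (hT : IsOver K L TK TL) (g₀ : L ≃ₐ[K] L) (n : ℕ) :
    sigmaEnd hT g₀ ^ n = sigmaEnd hT (g₀ ^ n) := by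
  induction n with
  | zero => rw [pow_zero, pow_zero, sigmaEnd_one]
  | succ n ih => rw [pow_succ, pow_succ, sigmaEnd_mul, ih]

theorem sigmaEnd_pow_eq_one (hT : IsOver K L TK TL) {g₀ : L ≃ₐ[K] L} {n : ℕ} (h : g₀ ^ n = 1) :
    sigmaEnd hT g₀ ^ n = 1 := by
  rw [sigmaEnd_pow, h, sigmaEnd_one]

/-- The inclusion of the `TK`-units as a `ℤ`-linear map. -/
noncomputable def mapLin (hT : IsOver K L TK TL) :
    Additive ↥(sUnits K TK) →ₗ[ℤ] Additive ↥(sUnits L TL) :=
  (MonoidHom.toAdditive (mapSUnits hT)).toIntLinearMap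

theorem mapLin_injective (hT : IsOver K L TK TL) : Function.Injective (mapLin hT) := by
  intro x y h
  exact mapSUnits_injective hT h

theorem fixed_of_generator (hT : IsOver K L TK TL) {g₀ : L ≃ₐ[K] L}
    (hg : ∀ τ : L ≃ₐ[K] L, τ ∈ Subgroup.zpowers g₀) {x : Additive ↥(sUnits L TL)}
    (hx : sigmaEnd hT g₀ x = x) (τ : L ≃ₐ[K] L) : rho hT τ x = x := by
  have hτ := hg τ
  rw [← mem_powers_iff_mem_zpowers] at hτ
  obtain ⟨n, rfl⟩ := hτ
  change sigmaEnd hT (g₀ ^ n) x = x
  rw [← sigmaEnd_pow]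
  induction n with
  | zero => rfl
  | succ n ih => rw [pow_succ, Module.End.mul_apply, hx, ih]

/-- For a generator `g₀` of `Gal(L/K)`: `ker (σ - 1)` is the image of the `TK`-units. -/
theorem ker_sub_one_eq_range [IsGalois K L] (hT : IsOver K L TK TL) {g₀ : L ≃ₐ[K] L}
    (hg : ∀ τ : L ≃ₐ[K] L, τ ∈ Subgroup.zpowers g₀) :
    LinearMap.ker (sigmaEnd hT g₀ - 1) = LinearMap.range (mapLin hT) := by
  ext x
  rw [LinearMap.mem_ker, LinearMap.sub_apply, Module.End.one_apply, sub_eq_zero]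
  constructor
  · intro hx
    exact (fixed_iff_mem_range hT x).mp (fixed_of_generator hT hg hx)
  · intro hx
    exact (fixed_iff_mem_range hT x).mpr hx g₀

/-- The `TK`-units as the kernel of `σ - 1` on the `TL`-units. -/
noncomputable def sUnitsEquivKer [IsGalois K L] (hT : IsOver K L TK TL) {g₀ : L ≃ₐ[K] L}
    (hg : ∀ τ : L ≃ₐ[K] L, τ ∈ Subgroup.zpowers g₀) :
    Additive ↥(sUnits K TK) ≃ₗ[ℤ] LinearMap.ker (sigmaEnd hT g₀ - 1) :=
  (LinearEquiv.ofInjective (mapLin hT) (mapLin_injective hT)).trans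
    (LinearEquiv.ofEq _ _ (ker_sub_one_eq_range hT hg).symm)

/-- The rank of the fixed points: `|TK| + rank K`. -/
theorem finrank_ker_sub_one [IsGalois K L] (hT : IsOver K L TK TL) {g₀ : L ≃ₐ[K] L}
    (hg : ∀ τ : L ≃ₐ[K] L, τ ∈ Subgroup.zpowers g₀) :
    Module.finrank ℤ (LinearMap.ker (sigmaEnd hT g₀ - 1)) = TK.card + Units.rank K := by
  rw [← (sUnitsEquivKer hT hg).finrank_eq, finrank_sUnits]

end Fermat.Agent.S55.SUnit19.Fixed
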