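import Mathlib
import Fermat.Agent.S55.SUnit19.Fixed
import Fermat.Agent.S55.SUnitCounts75
import Fermat.Agent.S55.ChevalleyHerbrand75

/-
S55 / leaf 16-SUNIT (helper19 + helper75), final assembly on the Chevalley route:
for `L/K` Galois of odd prime degree `p`, `S` a finite set of primes of `K`, `g₀ ≠ 1` in
`Gal(L/K)`, the Herbrand quotient of the `S`-units of `L` (units at the primes above `S`) is
`p ^ (t - 1)`, `t` = number of primes in `S` with exactly one prime of `L` above them.
-/

set_option autoImplicit false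
set_option linter.unusedSectionVars false

open NumberField IsDedekindDomain

namespace Fermat.Agent.S55.SUnit19.HerbrandSUnits

open Fermat.Agent.S55.SUnit19.SUnitRank Fermat.Agent.S55.SUnit19.Fixed
  Fermat.Agent.S55.SUnitCounts75 Fermat.Agent.S55.ChevalleyHerbrand75
  Fermat.Agent.S55.Herbrand54 Fermat.Agent.S55.HerbrandCyclic54

variable (K L : Type*) [Field K] [NumberField K] [Field L] [NumberField L] [Algebra K L]

theorem isOver_primesAbove (S : Finset (HeightOneSpectrum (𝓞 K))) :
    IsOver K L S (primesAbove L S) := fun w => mem_primesAbove L S w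

/-- The action of `Gal(L/K)` on the units of `L` at the primes above `S`. -/
noncomputable def rhoAbove (S : Finset (HeightOneSpectrum (𝓞 K))) :
    (L ≃ₐ[K] L) →* AddMonoid.End (Additive ↥(sUnits L (primesAbove L S))) :=
  rho (isOver_primesAbove K L S)

/-- The base change map from the `S`-units of `K`. -/
noncomputable def iotaAbove (S : Finset (HeightOneSpectrum (𝓞 K))) :
    Additive ↥(sUnits K S) →+ Additive ↥(sUnits L (primesAbove L S)) :=
  MonoidHom.toAdditive (mapSUnits (isOver_primesAbove K L S))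

theorem iotaAbove_injective (S : Finset (HeightOneSpectrum (𝓞 K))) :
    Function.Injective (iotaAbove K L S) :=
  fun _ _ h => mapSUnits_injective (isOver_primesAbove K L S) h

variable [IsGalois K L]

theorem card_gal {p : ℕ} (hdeg : Module.finrank K L = p) : Fintype.card (L ≃ₐ[K] L) = p := by
  rw [← Nat.card_eq_fintype_card, IsGalois.card_aut_eq_finrank, hdeg]

theorem mem_range_iotaAbove_iff {p : ℕ} [Fact p.Prime] (hdeg : Module.finrank K L = p)
    (S : Finset (HeightOneSpectrum (𝓞 K))) {g₀ : L ≃ₐ[K] L} (hg₀ : g₀ ≠ 1)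
    (x : Additive ↥(sUnits L (primesAbove L S))) :
    x ∈ (iotaAbove K L S).range ↔ rhoAbove K L S g₀ x = x := by
  have hT := isOver_primesAbove K L S
  have hcard : Nat.card (L ≃ₐ[K] L) = p := by
    rw [IsGalois.card_aut_eq_finrank, hdeg]
  have hg : ∀ τ : L ≃ₐ[K] L, τ ∈ Subgroup.zpowers g₀ := by
    intro τ
    rw [zpowers_eq_top_of_prime_card hcard hg₀]
    exact Subgroup.mem_top τ
  constructor
  · intro hx
    exact (fixed_iff_mem_range hT x).mpr hx g₀
  · intro hx
    exact (fixed_iff_mem_range hT x).mp (fixed_of_generator hT hg hx)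

/-- **Herbrand quotient of the `S`-units** of a cyclic extension of odd prime degree:
`|H⁰| * p = |H¹| * p ^ t`. -/
theorem herbrand_sUnits {p : ℕ} [Fact p.Prime] (hodd : Odd p) (hdeg : Module.finrank K L = p)
    (S : Finset (HeightOneSpectrum (𝓞 K))) {g₀ : L ≃ₐ[K] L} (hg₀ : g₀ ≠ 1) :
    (cyclicPair (rhoAbove K L S) g₀).IsDefined ∧
      Nat.card (cyclicPair (rhoAbove K L S) g₀).H0 * p =
        Nat.card (cyclicPair (rhoAbove K L S) g₀).H1 * p ^ (nonsplit L S).card :=
  cyclicPair_card_mul (rhoAbove K L S) (card_gal K L hdeg) hg₀ (iotaAbove K L S)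
    (iotaAbove_injective K L S) (mem_range_iotaAbove_iff K L hdeg S hg₀) _
    (rank_identity L (Fact.out : p.Prime) hodd hdeg S)

/-- The same as a statement on `Pair.q`: `h(S-units) = p ^ (t - 1)`. -/
theorem herbrand_sUnits_q {p : ℕ} [Fact p.Prime] (hodd : Odd p) (hdeg : Module.finrank K L = p)
    (S : Finset (HeightOneSpectrum (𝓞 K))) {g₀ : L ≃ₐ[K] L} (hg₀ : g₀ ≠ 1) :
    (cyclicPair (rhoAbove K L S) g₀).q * p = (p : ℚ) ^ (nonsplit L S).card :=
  cyclicPair_q (rhoAbove K L S) (card_gal K L hdeg) hg₀ (iotaAbove K L S)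
    (iotaAbove_injective K L S) (mem_range_iotaAbove_iff K L hdeg S hg₀) _
    (rank_identity L (Fact.out : p.Prime) hodd hdeg S)

end Fermat.Agent.S55.SUnit19.HerbrandSUnits
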