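/-
S55 / [SUNIT] (helper19), part (U1)+(U2): HERBRAND UNITS.

`L/K` an extension of number fields, `G = Gal(L/K)` acting on the infinite places of `L`.
* `unitsAct g : (𝓞 L)ˣ →* (𝓞 L)ˣ` : the action of `G` on the units;
* `exists_herbrand_units` (U1): if `G` acts freely on `InfinitePlace L` (e.g. `|G|` odd) there is a
  `G`-equivariant family of units `η_w` with `log |η_w|_{w'} < 0` for all `w' ≠ w`;
* `finiteIndex_closure_range` (U2): for ANY family of units with this sign pattern, the subgroup
  generated by the `η_w` has finite index in `(𝓞 L)ˣ` (no Galois hypothesis).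
Mathlib only.  All proofs complete.
-/
import Mathlib

set_option autoImplicit false

open NumberField NumberField.InfinitePlace NumberField.Units
open NumberField.Units.dirichletUnitTheorem Finset

namespace Fermat.Agent.S55.SUnit19.HerbrandUnits

section Action

variable {K L : Type*} [Field K] [Field L] [Algebra K L]

/-- The action of `Gal(L/K)` on the units of `𝓞 L`. -/
noncomputable def unitsAct (g : L ≃ₐ[K] L) : (𝓞 L)ˣ →* (𝓞 L)ˣ :=
  Units.map ((MulSemiringAction.toRingHom (L ≃ₐ[K] L) (𝓞 L) g : 𝓞 L →+* 𝓞 L) : 𝓞 L →* 𝓞 L)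

theorem coe_unitsAct (g : L ≃ₐ[K] L) (u : (𝓞 L)ˣ) :
    (((unitsAct g u : (𝓞 L)ˣ) : 𝓞 L) : L) = g ((u : 𝓞 L) : L) := rfl

theorem unitsAct_one (u : (𝓞 L)ˣ) : unitsAct (1 : L ≃ₐ[K] L) u = u := by
  apply Units.ext
  apply RingOfIntegers.ext
  rw [coe_unitsAct]
  rfl

theorem unitsAct_mul (g h : L ≃ₐ[K] L) (u : (𝓞 L)ˣ) :
    unitsAct (g * h) u = unitsAct g (unitsAct h u) := by
  apply Units.ext
  apply RingOfIntegers.ext
  rw [coe_unitsAct, coe_unitsAct, coe_unitsAct]
  rfl

/-- absolute values of a translated unit -/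
theorem place_unitsAct (g : L ≃ₐ[K] L) (u : (𝓞 L)ˣ) (w : InfinitePlace L) :
    w (((unitsAct g u : (𝓞 L)ˣ) : 𝓞 L) : L) = (g⁻¹ • w) ((u : 𝓞 L) : L) := by
  rw [coe_unitsAct, InfinitePlace.smul_apply]
  rfl

end Action

section U1

variable {K L : Type*} [Field K] [Field L] [NumberField L] [Algebra K L]

/-- **(U1) Herbrand units.**  If `Gal(L/K)` acts freely on the infinite places of `L`, there is an
equivariant family of units `η_w`, negative (in the logarithmic sense) at all places `w' ≠ w`. -/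
theorem exists_herbrand_units
    (hfree : ∀ (g : L ≃ₐ[K] L) (w : InfinitePlace L), g • w = w → g = 1) :
    ∃ η : InfinitePlace L → (𝓞 L)ˣ,
      (∀ (g : L ≃ₐ[K] L) (w : InfinitePlace L), η (g • w) = unitsAct g (η w)) ∧
      (∀ w w' : InfinitePlace L, w' ≠ w → Real.log (w' (((η w : (𝓞 L)ˣ) : 𝓞 L) : L)) < 0) := by
  classical
  -- orbit representatives
  let rep : InfinitePlace L → InfinitePlace L := fun w =>
    (Quotient.mk'' w : MulAction.orbitRel.Quotient (L ≃ₐ[K] L) (InfinitePlace L)).out
  have hrep : ∀ w, ∃ g : L ≃ₐ[K] L, g • rep w = w := by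
    intro w
    have h1 : (Quotient.mk'' (rep w) : MulAction.orbitRel.Quotient (L ≃ₐ[K] L) (InfinitePlace L))
        = Quotient.mk'' w := Quotient.out_eq' _
    have h2 := Quotient.eq''.mp h1
    rw [MulAction.orbitRel_apply] at h2
    obtain ⟨g, hg⟩ := h2
    exact ⟨g⁻¹, by rw [← hg, inv_smul_smul]⟩
  have hrep_smul : ∀ (h : L ≃ₐ[K] L) w, rep (h • w) = rep w := by
    intro h w
    have : (Quotient.mk'' (h • w) : MulAction.orbitRel.Quotient (L ≃ₐ[K] L) (InfinitePlace L))
        = Quotient.mk'' w := by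
      apply Quotient.sound'
      rw [MulAction.orbitRel_apply]
      exact ⟨h, rfl⟩
    simp only [rep, this]
  choose gw hgw using hrep
  -- the units of Mathlib's Dirichlet theorem
  choose u hu using fun w₁ : InfinitePlace L => exists_unit L w₁
  refine ⟨fun w => unitsAct (gw w) (u (rep w)), ?_, ?_⟩
  · intro h w
    have h1 : gw (h • w) = h * gw w := by
      have e1 : gw (h • w) • rep w = h • w := by
        have := hgw (h • w)
        rwa [hrep_smul] at this
      have e2 : (h * gw w) • rep w = h • w := by rw [mul_smul, hgw w]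
      have e3 : ((h * gw w)⁻¹ * gw (h • w)) • rep w = rep w := by
        rw [mul_smul, e1, ← e2, inv_smul_smul]
      have e4 := hfree _ _ e3
      have : gw (h • w) = (h * gw w) * ((h * gw w)⁻¹ * gw (h • w)) := by group
      rw [this, e4, mul_one]
    show unitsAct (gw (h • w)) (u (rep (h • w))) = unitsAct h (unitsAct (gw w) (u (rep w)))
    rw [hrep_smul, h1, unitsAct_mul]
  · intro w w' hne
    show Real.log (w' (((unitsAct (gw w) (u (rep w)) : (𝓞 L)ˣ) : 𝓞 L) : L)) < 0
    rw [place_unitsAct]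
    apply hu
    intro h
    apply hne
    rw [← hgw w, ← h, smul_inv_smul]

end U1

section U2

variable {L : Type*} [Field L] [NumberField L]

set_option backward.isDefEq.respectTransparency.types false in
open scoped Classical in
/-- The logarithmic vectors of a family of units with negative off-diagonal entries are linearly
independent and span the logarithmic space. -/
theorem det_logEmbedding_ne_zero (η : InfinitePlace L → (𝓞 L)ˣ)
    (hneg : ∀ w w' : InfinitePlace L, w' ≠ w →
      Real.log (w' (((η w : (𝓞 L)ˣ) : 𝓞 L) : L)) < 0) :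
    (Pi.basisFun ℝ {w : InfinitePlace L // w ≠ w₀}).det
      (fun w : {w : InfinitePlace L // w ≠ w₀} =>
        logEmbedding L (Additive.ofMul (η w.1))) ≠ 0 := by
  rw [Module.Basis.det_apply]
  refine det_ne_zero_of_sum_col_lt_diag (fun w ↦ ?_)
  simp_rw [Real.norm_eq_abs, Module.Basis.coePiBasisFun.toMatrix_eq_transpose,
    Matrix.transpose_apply]
  rw [← sub_pos, sum_congr rfl (fun x hx ↦ abs_of_neg ?_), sum_neg_distrib, sub_neg_eq_add,
    sum_erase_eq_sub (mem_univ _), ← add_comm_sub]
  · refine add_pos_of_nonneg_of_pos ?_ ?_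
    · rw [sub_nonneg]
      exact le_abs_self _
    · rw [sum_logEmbedding_component (η w.1)]
      refine mul_pos_of_neg_of_neg ?_ (hneg _ _ w.prop.symm)
      rw [mult]; split_ifs <;> norm_num
  · refine mul_neg_of_pos_of_neg ?_ (hneg _ _ ?_)
    · rw [mult]; split_ifs <;> norm_num
    · exact Subtype.ext_iff.not.mp (ne_of_mem_erase hx)

open scoped Classical in
/-- **(U2)** For a family of units `η_w` with `log |η_w|_{w'} < 0` for all `w' ≠ w`, the subgroup
generated by the `η_w` has finite index in `(𝓞 L)ˣ`. -/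
theorem finiteIndex_closure_range (η : InfinitePlace L → (𝓞 L)ˣ)
    (hneg : ∀ w w' : InfinitePlace L, w' ≠ w →
      Real.log (w' (((η w : (𝓞 L)ˣ) : 𝓞 L) : L)) < 0) :
    (Subgroup.closure (Set.range η)).FiniteIndex := by
  have hdet := det_logEmbedding_ne_zero η hneg
  set v : {w : InfinitePlace L // w ≠ w₀} → logSpace L :=
    fun w => logEmbedding L (Additive.ofMul (η w.1)) with hv
  have hb := (Module.Basis.is_basis_iff_det (Pi.basisFun ℝ {w : InfinitePlace L // w ≠ w₀})).mpr
    (isUnit_iff_ne_zero.mpr hdet)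
  let b : Module.Basis {w : InfinitePlace L // w ≠ w₀} ℝ (logSpace L) :=
    Module.Basis.mk hb.1 hb.2.ge
  have hbv : ∀ w, b w = v w := fun w => Module.Basis.mk_apply hb.1 hb.2.ge w
  set H : Subgroup (𝓞 L)ˣ := Subgroup.closure (Set.range η) with hH
  -- elements of the `ℤ`-span of the basis come from `H`
  have hspan : ∀ z ∈ Submodule.span ℤ (Set.range b),
      ∃ h ∈ H, logEmbedding L (Additive.ofMul h) = z := by
    intro z hz
    induction hz using Submodule.span_induction with
    | mem z hz =>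
      obtain ⟨w, rfl⟩ := hz
      exact ⟨η w.1, Subgroup.subset_closure ⟨w.1, rfl⟩, (hbv w).symm⟩
    | zero => exact ⟨1, H.one_mem, by simp⟩
    | add z₁ z₂ _ _ h₁ h₂ =>
      obtain ⟨h₁, hh₁, rfl⟩ := h₁
      obtain ⟨h₂, hh₂, rfl⟩ := h₂
      exact ⟨h₁ * h₂, H.mul_mem hh₁ hh₂, by rw [ofMul_mul, map_add]⟩
    | smul n z _ h₁ =>
      obtain ⟨h₁, hh₁, rfl⟩ := h₁
      exact ⟨h₁ ^ n, H.zpow_mem hh₁ n, by rw [ofMul_zpow, map_zsmul]⟩
  -- a bounded fundamental domain
  obtain ⟨r, hr⟩ := (ZSpan.fundamentalDomain_isBounded b).subset_closedBall 0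
  -- the finite set of units with bounded logarithmic vector
  have hTfin : {x : (𝓞 L)ˣ | logEmbedding L (Additive.ofMul x) ∈
      ((unitLattice L : Set (logSpace L)) ∩ Metric.closedBall 0 r)}.Finite := by
    refine Set.Finite.preimage' (unitLattice_inter_ball_finite L r) ?_
    intro y hy
    obtain ⟨⟨x₀, -, hx₀⟩, -⟩ := hy
    have hx₀' : logEmbedding L x₀ = y := hx₀
    refine Set.Finite.subset (Set.Finite.image (fun t : (𝓞 L)ˣ => Additive.toMul x₀ * t)
      (Set.finite_coe_iff.mp (inferInstance : Finite (torsion L)))) ?_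
    intro x hx
    have hx' : logEmbedding L (Additive.ofMul x) = y := hx
    refine ⟨(Additive.toMul x₀)⁻¹ * x, ?_, by simp⟩
    rw [SetLike.mem_coe, ← logEmbedding_eq_zero_iff, ofMul_mul, ofMul_inv, ofMul_toMul, map_add,
      map_neg, hx', hx₀', neg_add_cancel]
  -- every coset has a representative in this finite set
  have : Finite ((𝓞 L)ˣ ⧸ H) := by
    have hfin := hTfin.to_subtype
    refine Finite.of_surjective (fun x : {x : (𝓞 L)ˣ | logEmbedding L (Additive.ofMul x) ∈
      ((unitLattice L : Set (logSpace L)) ∩ Metric.closedBall 0 r)} =>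
        (QuotientGroup.mk x.1 : (𝓞 L)ˣ ⧸ H)) ?_
    intro q
    obtain ⟨x, rfl⟩ := QuotientGroup.mk_surjective q
    set y := logEmbedding L (Additive.ofMul x) with hy
    obtain ⟨h, hhH, hh⟩ := hspan _ (ZSpan.floor b y).2
    refine ⟨⟨x * h⁻¹, ?_⟩, ?_⟩
    · refine ⟨⟨Additive.ofMul (x * h⁻¹), trivial, rfl⟩, hr ?_⟩
      have : logEmbedding L (Additive.ofMul (x * h⁻¹)) = ZSpan.fract b y := by
        rw [ofMul_mul, ofMul_inv, map_add, map_neg, hh, ZSpan.fract_apply, ← hy, sub_eq_add_neg]
      rw [this]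
      exact ZSpan.fract_mem_fundamentalDomain b y
    · show (QuotientGroup.mk (x * h⁻¹) : (𝓞 L)ˣ ⧸ H) = QuotientGroup.mk x
      rw [QuotientGroup.eq]
      have : (x * h⁻¹)⁻¹ * x = h := by group
      rw [this]
      exact hhH
  exact Subgroup.finiteIndex_of_finite_quotient

end U2

end Fermat.Agent.S55.SUnit19.HerbrandUnits
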